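import Mathlib

/-!
# Crossing algebra for Chebotarev (piece E of CHEB, helper701) — the crossing element

For a Galois number field `L/ℚ`, `σ ∈ Gal(L/ℚ)` and a prime `m ≡ 1 mod ord σ` not dividing
`disc L`, the field `M = L(ζ_m)` is Galois over `ℚ`, `Φ_m` is irreducible over `L`, and there is
`c ∈ Gal(M/ℚ)` lifting `σ` on which the cyclotomic character is injective
(`exists_crossing_lift_h701`).

Mathlib only.
-/

open scoped NumberField

set_option autoImplicit false

namespace Fermat.Agent.Lib.Cheb.H701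

section Construct

variable (L : Type*) {M : Type*} [Field L] [NumberField L]
  [Field M] [NumberField M] [Algebra L M]

/-- The image of `L` in `M`, as an intermediate field of `M/ℚ`. -/
noncomputable abbrev imgField_h701 (L : Type*) (M : Type*) [Field L] [NumberField L]
    [Field M] [NumberField M] [Algebra L M] : IntermediateField ℚ M :=
  (IsScalarTower.toAlgHom ℚ L M).fieldRange

lemma algebraMap_mem_imgField_h701 (x : L) : algebraMap L M x ∈ imgField_h701 L M :=
  ⟨x, rfl⟩

/-- `L ≃ image of L in M`. -/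
noncomputable def imgFieldEquiv_h701 : L ≃ₐ[ℚ] imgField_h701 L M :=
  (IsScalarTower.toAlgHom ℚ L M).equivFieldRange

instance isGalois_imgField_h701 [IsGalois ℚ L] : IsGalois ℚ (imgField_h701 L M) :=
  IsGalois.of_algEquiv (imgFieldEquiv_h701 L (M := M))

lemma discr_imgField_h701 : NumberField.discr (imgField_h701 L M) = NumberField.discr L :=
  (NumberField.discr_eq_discr_of_algEquiv L (imgFieldEquiv_h701 L (M := M))).symm

lemma finrank_imgField_h701 :
    Module.finrank ℚ (imgField_h701 L M) = Module.finrank ℚ L :=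
  (imgFieldEquiv_h701 L (M := M)).toLinearEquiv.finrank_eq.symm

variable {m : ℕ} [hm : Fact m.Prime]

/-- If the prime `m` does not divide the discriminant of `L`, then `L` and `ℚ(ζ_m)` are linearly
disjoint inside `M`. -/
lemma linearDisjoint_imgField_adjoin_h701 [IsGalois ℚ L] {ζ : M} (hζ : IsPrimitiveRoot ζ m)
    (hdisc : ¬ (m : ℤ) ∣ NumberField.discr L) :
    (imgField_h701 L M).LinearDisjoint (IntermediateField.adjoin ℚ {ζ}) := by
  have : IsCyclotomicExtension {m} ℚ (IntermediateField.adjoin ℚ {ζ}) :=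
    IsPrimitiveRoot.intermediateField_adjoin_isCyclotomicExtension ℚ hζ
  apply NumberField.linearDisjoint_of_isGalois_isCoprime_discr
  rw [discr_imgField_h701,
    IsCyclotomicExtension.Rat.discr_prime m (IntermediateField.adjoin ℚ {ζ})]
  have hmp : Prime (m : ℤ) := Nat.prime_iff_prime_int.mp hm.out
  have h1 : IsCoprime (NumberField.discr L) (m : ℤ) :=
    ((Prime.coprime_iff_not_dvd hmp).mpr hdisc).symm
  have h2 : IsCoprime (NumberField.discr L) ((m : ℤ) ^ (m - 2)) := h1.pow_right
  have h3 : IsCoprime (NumberField.discr L) ((-1 : ℤ) ^ ((m - 1) / 2)) :=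
    (isCoprime_one_right.neg_right).pow_right
  exact h3.mul_right h2


section Cyc
variable {m : ℕ} [NeZero m] [IsCyclotomicExtension {m} L M]

/-- `M = L(ζ)` gives `L ⊔ ℚ(ζ) = M`. -/
lemma imgField_sup_adjoin_eq_top_h701 {ζ : M} (hζ : IsPrimitiveRoot ζ m) :
    imgField_h701 L M ⊔ IntermediateField.adjoin ℚ {ζ} = ⊤ := by
  rw [eq_top_iff]
  intro x hx0
  clear hx0
  have hx : x ∈ Algebra.adjoin L {ζ} := by
    rw [IsCyclotomicExtension.adjoin_primitive_root_eq_top hζ]
    exact Algebra.mem_top
  induction hx using Algebra.adjoin_induction with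
  | mem y hy =>
    rw [Set.mem_singleton_iff] at hy
    subst hy
    exact (le_sup_right : IntermediateField.adjoin ℚ {y} ≤ _)
      (IntermediateField.mem_adjoin_simple_self ℚ y)
  | algebraMap r =>
    exact (le_sup_left : imgField_h701 L M ≤ _) (algebraMap_mem_imgField_h701 L r)
  | add y z _ _ hy hz => exact add_mem hy hz
  | mul y z _ _ hy hz => exact mul_mem hy hz


end Cyc

section CycPrime

/-- `L(ζ_m)` is Galois over `ℚ` when `L` is. -/
theorem isGalois_of_isCyclotomicExtension_h701 (L : Type*) (M : Type*) [Field L] [NumberField L]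
    [Field M] [NumberField M] [Algebra L M] (m : ℕ) [NeZero m]
    [IsCyclotomicExtension {m} L M] [IsGalois ℚ L] : IsGalois ℚ M := by
  have hζ := IsCyclotomicExtension.zeta_spec m L M
  set ζ := IsCyclotomicExtension.zeta m L M
  have : IsCyclotomicExtension {m} ℚ (IntermediateField.adjoin ℚ {ζ}) :=
    IsPrimitiveRoot.intermediateField_adjoin_isCyclotomicExtension ℚ hζ
  have : IsGalois ℚ (IntermediateField.adjoin ℚ {ζ}) :=
    IsCyclotomicExtension.isGalois {m} ℚ _
  have hG1 : IsGalois ℚ (imgField_h701 L M) := isGalois_imgField_h701 L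
  have hN1 : Normal ℚ (imgField_h701 L M) := hG1.to_normal
  have hN2 : Normal ℚ (IntermediateField.adjoin ℚ {ζ}) := IsGalois.to_normal
  have h1 : Normal ℚ ↥(imgField_h701 L M ⊔ IntermediateField.adjoin ℚ {ζ}) :=
    @IntermediateField.normal_sup ℚ M _ _ _ (imgField_h701 L M)
      (IntermediateField.adjoin ℚ {ζ}) hN1 hN2
  rw [imgField_sup_adjoin_eq_top_h701 L hζ] at h1
  have h2 : Normal ℚ M :=
    @Normal.of_algEquiv ℚ _ _ _ _ _ _ _ h1 (IntermediateField.topEquiv (F := ℚ) (E := M))
  exact { to_isSeparable := inferInstance, to_normal := h2 }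

/-- `[L(ζ_m) : L] = m - 1` when `m ∤ disc L`. -/
theorem finrank_of_not_dvd_discr_h701 (L : Type*) (M : Type*) [Field L] [NumberField L]
    [Field M] [NumberField M] [Algebra L M] (m : ℕ) [hm : Fact m.Prime]
    [IsCyclotomicExtension {m} L M] [IsGalois ℚ L]
    (hdisc : ¬ (m : ℤ) ∣ NumberField.discr L) :
    Module.finrank L M = m.totient := by
  have hζ := IsCyclotomicExtension.zeta_spec m L M
  set ζ := IsCyclotomicExtension.zeta m L M
  have : IsCyclotomicExtension {m} ℚ (IntermediateField.adjoin ℚ {ζ}) :=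
    IsPrimitiveRoot.intermediateField_adjoin_isCyclotomicExtension ℚ hζ
  have hld := linearDisjoint_imgField_adjoin_h701 L hζ hdisc
  have h1 := hld.finrank_sup
  rw [imgField_sup_adjoin_eq_top_h701 L hζ, IntermediateField.finrank_top',
    finrank_imgField_h701,
    IsCyclotomicExtension.Rat.finrank m (IntermediateField.adjoin ℚ {ζ}),
    ← Module.finrank_mul_finrank ℚ L M] at h1
  exact Nat.eq_of_mul_eq_mul_left Module.finrank_pos h1

/-- The cyclotomic polynomial `Φ_m` stays irreducible over `L` when `m ∤ disc L`. -/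
theorem irreducible_cyclotomic_of_not_dvd_discr_h701 (L : Type*) (M : Type*) [Field L]
    [NumberField L] [Field M] [NumberField M] [Algebra L M] (m : ℕ) [hm : Fact m.Prime]
    [IsCyclotomicExtension {m} L M] [IsGalois ℚ L]
    (hdisc : ¬ (m : ℤ) ∣ NumberField.discr L) :
    Irreducible (Polynomial.cyclotomic m L) := by
  have hζ := IsCyclotomicExtension.zeta_spec m L M
  set ζ := IsCyclotomicExtension.zeta m L M
  have hint : IsIntegral L ζ := Algebra.IsIntegral.isIntegral ζ
  have hdvd : minpoly L ζ ∣ Polynomial.cyclotomic m L := by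
    apply minpoly.dvd
    have := hζ.isRoot_cyclotomic (NeZero.pos m)
    rw [Polynomial.IsRoot.def, ← Polynomial.map_cyclotomic m (algebraMap L M),
      Polynomial.eval_map_algebraMap] at this
    exact this
  have htop : IntermediateField.adjoin L {ζ} = ⊤ :=
    IntermediateField.adjoin_eq_top_of_algebra L {ζ}
      (IsCyclotomicExtension.adjoin_primitive_root_eq_top hζ)
  have hdeg : (minpoly L ζ).natDegree = m.totient := by
    rw [← IntermediateField.adjoin.finrank hint, htop, IntermediateField.finrank_top',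
      finrank_of_not_dvd_discr_h701 L M m hdisc]
  have heq : Polynomial.cyclotomic m L = minpoly L ζ := by
    apply Polynomial.eq_of_monic_of_dvd_of_natDegree_le (minpoly.monic hint)
      (Polynomial.cyclotomic.monic m L) hdvd
    rw [hdeg, Polynomial.natDegree_cyclotomic]
  rw [heq]
  exact minpoly.irreducible hint

end CycPrime

end Construct


section Char

variable {K M : Type*} [Field K] [Field M] [Algebra K M] {m : ℕ} [NeZero m] {ζ : M}
  (hζ : IsPrimitiveRoot ζ m)

/-- The cyclotomic character is determined by the action on `ζ`. -/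
lemma autToPow_eq_of_apply_h701 (g : M ≃ₐ[K] M) (a : (ZMod m)ˣ)
    (h : g ζ = ζ ^ (a : ZMod m).val) : hζ.autToPow K g = a := by
  have h1 := hζ.autToPow_spec K g
  rw [h] at h1
  have h2 := hζ.pow_inj (ZMod.val_lt _) (ZMod.val_lt _) h1
  exact Units.ext (ZMod.val_injective m h2)

lemma autToPow_eq_one_of_apply_h701 (g : M ≃ₐ[K] M)
    (h : g ζ = ζ) : hζ.autToPow K g = 1 := by
  apply autToPow_eq_of_apply_h701 hζ g 1
  rcases Nat.lt_or_ge 1 m with h1 | h1
  · have : Fact (1 < m) := ⟨h1⟩
    rw [Units.val_one, ZMod.val_one, pow_one, h]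
  · have hm1 : m = 1 := le_antisymm h1 (NeZero.pos m)
    subst hm1
    have : ζ = 1 := by simpa using hζ.pow_eq_one
    rw [h, this, one_pow]

end Char

section Lift

variable {L M : Type*} [Field L] [NumberField L] [Field M] [NumberField M] [Algebra L M]

omit [NumberField L] in
/-- An automorphism of `M = L(ζ)` over `ℚ` fixing `L` pointwise and `ζ` is trivial. -/
lemma eq_one_of_fix_h701 {m : ℕ} [NeZero m] [IsCyclotomicExtension {m} L M] {ζ : M}
    (hζ : IsPrimitiveRoot ζ m) (g : M ≃ₐ[ℚ] M)
    (hL : ∀ x : L, g (algebraMap L M x) = algebraMap L M x) (hgζ : g ζ = ζ) : g = 1 := by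
  ext x
  have hx : x ∈ Algebra.adjoin L {ζ} := by
    rw [IsCyclotomicExtension.adjoin_primitive_root_eq_top hζ]
    exact Algebra.mem_top
  rw [AlgEquiv.one_apply]
  induction hx using Algebra.adjoin_induction with
  | mem y hy =>
    rw [Set.mem_singleton_iff] at hy
    subst hy
    exact hgζ
  | algebraMap r => exact hL r
  | add y z _ _ hy hz => rw [map_add, hy, hz]
  | mul y z _ _ hy hz => rw [map_mul, hy, hz]

/-- Powers of a lift restrict to powers. -/
lemma zpow_apply_algebraMap_h701 [Normal ℚ L] (c : M ≃ₐ[ℚ] M) (σ : L ≃ₐ[ℚ] L)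
    (h : ∀ x : L, c (algebraMap L M x) = algebraMap L M (σ x)) (j : ℤ) (x : L) :
    (c ^ j) (algebraMap L M x) = algebraMap L M ((σ ^ j) x) := by
  have h1 : AlgEquiv.restrictNormalHom L c = σ := by
    ext y
    apply (algebraMap L M).injective
    exact (AlgEquiv.restrictNormal_commutes c L y).trans (h y)
  have h2 : AlgEquiv.restrictNormalHom L (c ^ j) = σ ^ j := by
    rw [map_zpow, h1]
  rw [← h2]
  exact (AlgEquiv.restrictNormal_commutes (c ^ j) L x).symm

end Lift


section Exists

open IsCyclotomicExtension in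
/-- **Construction of the crossing element.**  Let `L/ℚ` be a Galois number field, `σ ∈ Gal(L/ℚ)`,
`m` a prime with `m ≡ 1 mod ord σ` not dividing `disc L`, and `M = L(ζ_m)`.  Then there is
`c ∈ Gal(M/ℚ)` restricting to `σ` on `L` such that the cyclotomic character is injective on the
cyclic group `⟨c⟩`. -/
theorem exists_crossing_lift_h701 (L : Type*) (M : Type*) [Field L] [NumberField L]
    [Field M] [NumberField M] [Algebra L M] (m : ℕ) [hm : Fact m.Prime]
    [IsCyclotomicExtension {m} L M] [IsGalois ℚ L] [IsGalois ℚ M]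
    (hdisc : ¬ (m : ℤ) ∣ NumberField.discr L) (σ : L ≃ₐ[ℚ] L)
    (hmod : m ≡ 1 [MOD orderOf σ]) :
    ∃ c : M ≃ₐ[ℚ] M,
      (∀ x : L, c (algebraMap L M x) = algebraMap L M (σ x)) ∧
      (∀ g ∈ Subgroup.zpowers c, g (zeta m L M) = zeta m L M → g = 1) := by
  classical
  have hζ := zeta_spec m L M
  set ζ := zeta m L M with hζdef
  have hirr := irreducible_cyclotomic_of_not_dvd_discr_h701 L M m hdisc
  -- a generator of `(ZMod m)ˣ`
  obtain ⟨a, ha⟩ := IsCyclic.exists_ofOrder_eq_natCard (α := (ZMod m)ˣ)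
  have hcard : Nat.card (ZMod m)ˣ = m - 1 := by
    rw [Nat.card_eq_fintype_card, ZMod.card_units_eq_totient, Nat.totient_prime hm.out]
  have hdvd : orderOf σ ∣ orderOf a := by
    rw [ha, hcard]
    exact (Nat.modEq_iff_dvd' hm.out.one_le).mp hmod.symm
  -- a first lift
  set c0 : M ≃ₐ[ℚ] M := σ.liftNormal M with hc0
  have hc0L : ∀ x : L, c0 (algebraMap L M x) = algebraMap L M (σ x) :=
    fun x => AlgEquiv.liftNormal_commutes σ M x
  -- correct the action on ζ
  have hμ0 : IsPrimitiveRoot (ζ ^ (a : ZMod m).val) m :=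
    hζ.pow_of_coprime _ (ZMod.val_coe_unit_coprime a)
  have hμ : IsPrimitiveRoot (c0.symm (ζ ^ (a : ZMod m).val)) m :=
    hμ0.map_of_injective c0.symm.injective
  set τ' : M ≃ₐ[L] M := fromZetaAut hμ hirr with hτ'
  have hτ'ζ : τ' ζ = c0.symm (ζ ^ (a : ZMod m).val) := fromZetaAut_spec hμ hirr
  set τ : M ≃ₐ[ℚ] M := τ'.restrictScalars ℚ with hτ
  refine ⟨c0 * τ, ?_, ?_⟩
  · intro x
    rw [AlgEquiv.mul_apply]
    have : τ (algebraMap L M x) = algebraMap L M x := τ'.commutes x
    rw [this, hc0L]
  · have hcζ : (c0 * τ) ζ = ζ ^ (a : ZMod m).val := by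
      rw [AlgEquiv.mul_apply]
      have : τ ζ = c0.symm (ζ ^ (a : ZMod m).val) := hτ'ζ
      rw [this, AlgEquiv.apply_symm_apply]
    have hχc : hζ.autToPow ℚ (c0 * τ) = a := autToPow_eq_of_apply_h701 hζ _ a hcζ
    have hcL : ∀ x : L, (c0 * τ) (algebraMap L M x) = algebraMap L M (σ x) := by
      intro x
      rw [AlgEquiv.mul_apply]
      have : τ (algebraMap L M x) = algebraMap L M x := τ'.commutes x
      rw [this, hc0L]
    intro g hg hgζ
    obtain ⟨j, rfl⟩ := Subgroup.mem_zpowers_iff.mp hg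
    have h1 : hζ.autToPow ℚ ((c0 * τ) ^ j) = 1 := autToPow_eq_one_of_apply_h701 hζ _ hgζ
    rw [map_zpow, hχc] at h1
    have h2 : (orderOf a : ℤ) ∣ j := orderOf_dvd_iff_zpow_eq_one.mpr h1
    have h3 : (orderOf σ : ℤ) ∣ j := (Int.natCast_dvd_natCast.mpr hdvd).trans h2
    have h4 : σ ^ j = 1 := orderOf_dvd_iff_zpow_eq_one.mp h3
    apply eq_one_of_fix_h701 (L := L) hζ _ _ hgζ
    intro x
    rw [zpow_apply_algebraMap_h701 (c0 * τ) σ hcL j x, h4, AlgEquiv.one_apply]

end Exists


end Fermat.Agent.Lib.Cheb.H701
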