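import Mathlib

/-!
# Crossing algebra for Chebotarev (piece E of CHEB, helper701) — Frobenius identification

* `isArithFrobAt_under_h701`: Frobenius elements restrict along a tower `M / L / ℚ`.
* `isArithFrobAt_of_degree_one_h701`: if `Gal(M/F) = ⟨c⟩`, the cyclotomic character is injective
  on `⟨c⟩`, and `r` is a degree-one prime of `F` of norm `p` with `c ζ = ζ ^ p`, then `c` is the
  arithmetic Frobenius over `ℤ` at every prime of `M` above `r`.

Mathlib only.
-/

open scoped NumberField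

set_option autoImplicit false

namespace Fermat.Agent.Lib.Cheb.H701

section Restrict

variable {L M : Type*} [Field L] [NumberField L] [Field M] [NumberField M] [Algebra L M]

lemma coe_galSMul_h701 (c : M ≃ₐ[ℚ] M) (y : 𝓞 M) : ((c • y : 𝓞 M) : M) = c (y : M) := rfl

lemma algebraMap_galSMul_h701 (c : M ≃ₐ[ℚ] M) (σ : L ≃ₐ[ℚ] L)
    (h : ∀ x : L, c (algebraMap L M x) = algebraMap L M (σ x)) (x : 𝓞 L) :
    algebraMap (𝓞 L) (𝓞 M) (σ • x) = c • algebraMap (𝓞 L) (𝓞 M) x := by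
  apply NumberField.RingOfIntegers.ext
  rw [coe_galSMul_h701]
  exact (h x).symm

/-- Restriction of Frobenius elements along a tower `M / L / ℚ`. -/
theorem isArithFrobAt_under_h701 (c : M ≃ₐ[ℚ] M) (σ : L ≃ₐ[ℚ] L)
    (h : ∀ x : L, c (algebraMap L M x) = algebraMap L M (σ x))
    (P' : Ideal (𝓞 M)) (hc : IsArithFrobAt ℤ c P') :
    IsArithFrobAt ℤ σ (P'.under (𝓞 L)) := by
  intro x
  have h1 := hc (algebraMap (𝓞 L) (𝓞 M) x)
  rw [Ideal.under_def, Ideal.mem_comap, map_sub, map_pow]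
  have h2 : (P'.under (𝓞 L)).under ℤ = P'.under ℤ := by
    rw [Ideal.under_under]
  have h3 : algebraMap (𝓞 L) (𝓞 M) ((MulSemiringAction.toAlgHom ℤ (𝓞 L) σ) x)
      = (MulSemiringAction.toAlgHom ℤ (𝓞 M) c) (algebraMap (𝓞 L) (𝓞 M) x) :=
    algebraMap_galSMul_h701 c σ h x
  rw [← Ideal.under_def, h2, h3]
  exact h1

end Restrict


section FrobId

variable {M : Type*} [Field M] [NumberField M] [IsGalois ℚ M]


/-- `P'.under ℤ = (p)` when the natural number prime `p` lies in `P'`. -/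
lemma under_int_eq_span_h701 {A : Type*} [CommRing A] (P' : Ideal A) [P'.IsPrime]
    {p : ℕ} (hp : p.Prime) (hpP : (p : A) ∈ P') :
    P'.under ℤ = Ideal.span {(p : ℤ)} := by
  have hmax : (Ideal.span {(p : ℤ)}).IsMaximal :=
    haveI : Fact p.Prime := ⟨hp⟩
    Int.ideal_span_isMaximal_of_prime p
  have hle : Ideal.span {(p : ℤ)} ≤ P'.under ℤ := by
    rw [Ideal.span_singleton_le_iff_mem, Ideal.under_def, Ideal.mem_comap]
    simpa using hpP
  have hne : P'.under ℤ ≠ ⊤ := by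
    rw [Ideal.under_def]
    exact Ideal.comap_ne_top _ (Ideal.IsPrime.ne_top ‹_›)
  exact (hmax.eq_of_le hne hle).symm

lemma card_quot_under_int_h701 {A : Type*} [CommRing A] (P' : Ideal A) [P'.IsPrime]
    {p : ℕ} (hp : p.Prime) (hpP : (p : A) ∈ P') :
    Nat.card (ℤ ⧸ P'.under ℤ) = p := by
  rw [under_int_eq_span_h701 P' hp hpP, Int.card_ideal_quot]

/-- Two distinct prime numbers cannot both lie in a proper ideal. -/
lemma not_mem_of_prime_ne_h701 {A : Type*} [CommRing A] (P' : Ideal A) (hP' : P' ≠ ⊤)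
    {p m : ℕ} (hp : p.Prime) (hm : m.Prime) (hpm : p ≠ m) (hpP : (p : A) ∈ P') :
    (m : A) ∉ P' := by
  intro hmP
  have hcop : IsCoprime (p : ℤ) (m : ℤ) :=
    Nat.isCoprime_iff_coprime.mpr ((Nat.coprime_primes hp hm).mpr hpm)
  obtain ⟨u, v, huv⟩ := hcop
  have h1 : ((u * p + v * m : ℤ) : A) ∈ P' := by
    push_cast
    exact P'.add_mem (P'.mul_mem_left _ hpP) (P'.mul_mem_left _ hmP)
  rw [huv] at h1
  exact hP' ((Ideal.eq_top_iff_one _).mpr (by simpa using h1))

/-- **Frobenius identification.** Let `M/ℚ` be a Galois number field containing a primitive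
`m`-th root of unity `ζ`, let `c ∈ Gal(M/ℚ)` be such that the cyclotomic character is injective
on `⟨c⟩`, and let `F` be an intermediate field with `Gal(M/F) = ⟨c⟩`.  If `r` is a prime of `F`
of absolute norm a prime number `p ≠ m` with `c ζ = ζ ^ p`, then `c` is the arithmetic Frobenius
(over `ℤ`) at every prime `P'` of `M` above `r`. -/
theorem isArithFrobAt_of_degree_one_h701 (c : M ≃ₐ[ℚ] M) {m : ℕ} [NeZero m] {ζ : M}
    (hζ : IsPrimitiveRoot ζ m)
    (hinj : ∀ g ∈ Subgroup.zpowers c, g ζ = ζ → g = 1)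
    (F : IntermediateField ℚ M) (hF : F.fixingSubgroup = Subgroup.zpowers c)
    (r : Ideal (𝓞 F)) {p : ℕ} (hp : p.Prime) (hN : Ideal.absNorm r = p)
    (hpm : p ≠ m) (hm : m.Prime) (hcζ : c ζ = ζ ^ p)
    (P' : Ideal (𝓞 M)) [P'.IsPrime] (hP' : P'.under (𝓞 F) = r) :
    IsArithFrobAt ℤ c P' := by
  classical
  -- `p ∈ P'`
  have hpr : (p : 𝓞 F) ∈ r := by
    have := Ideal.absNorm_mem r
    rwa [hN] at this
  have hpP : (p : 𝓞 M) ∈ P' := by
    have h1 : (p : 𝓞 F) ∈ P'.under (𝓞 F) := hP' ▸ hpr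
    rw [Ideal.under_def, Ideal.mem_comap] at h1
    simpa using h1
  have hPbot : P' ≠ ⊥ := by
    intro h
    rw [h, Ideal.mem_bot] at hpP
    exact hp.ne_zero (by exact_mod_cast hpP)
  have : Finite (𝓞 M ⧸ P') := Ideal.finiteQuotientOfFreeOfNeBot P' hPbot
  -- the relative Frobenius
  obtain ⟨φ, hφ⟩ := IsArithFrobAt.exists_of_isInvariant (𝓞 F) (M ≃ₐ[F] M) P'
  have hcard : Nat.card (𝓞 F ⧸ P'.under (𝓞 F)) = p := by
    rw [hP', ← Submodule.cardQuot_apply, ← Ideal.absNorm_apply, hN]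
  -- `m ∉ P'`
  have hmP : (m : 𝓞 M) ∉ P' :=
    not_mem_of_prime_ne_h701 P' (Ideal.IsPrime.ne_top ‹_›) hp hm hpm hpP
  -- action on ζ
  have hζ' : (hζ.toInteger) ^ m = 1 := by
    apply NumberField.RingOfIntegers.ext
    have h0 : ((hζ.toInteger : 𝓞 M) : M) = ζ := rfl
    rw [NumberField.RingOfIntegers.coe_eq_algebraMap, map_pow,
      ← NumberField.RingOfIntegers.coe_eq_algebraMap, h0, hζ.pow_eq_one,
      NumberField.RingOfIntegers.coe_eq_algebraMap, map_one]
  have hφζ := hφ.apply_of_pow_eq_one hζ' hmP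
  rw [hcard] at hφζ
  have hφζ' : φ ζ = ζ ^ p := by
    have := congrArg (fun x : 𝓞 M => (x : M)) hφζ
    simp only [map_pow] at this
    exact this
  -- `φ` as an element of `Gal(M/ℚ)`
  set φ' : M ≃ₐ[ℚ] M := φ.restrictScalars ℚ with hφ'def
  have hφ'mem : φ' ∈ Subgroup.zpowers c := by
    rw [← hF, IntermediateField.mem_fixingSubgroup_iff]
    intro x hx
    exact φ.commutes ⟨x, hx⟩
  have hg : c⁻¹ * φ' = 1 := by
    apply hinj _ (Subgroup.mul_mem _ (Subgroup.inv_mem _ (Subgroup.mem_zpowers c)) hφ'mem)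
    rw [AlgEquiv.mul_apply]
    have : φ' ζ = c ζ := by rw [hcζ, ← hφζ']; rfl
    rw [this]
    exact c.symm_apply_apply ζ
  have hφc : φ' = c := by
    have := congrArg (fun x => c * x) hg
    simpa [← mul_assoc] using this
  -- conclude
  intro y
  have h1 := hφ y
  rw [hcard] at h1
  rw [card_quot_under_int_h701 P' hp hpP]
  have h2 : (MulSemiringAction.toAlgHom ℤ (𝓞 M) c) y
      = (MulSemiringAction.toAlgHom (𝓞 F) (𝓞 M) φ) y := by
    apply NumberField.RingOfIntegers.ext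
    show c (y : M) = φ (y : M)
    rw [← hφc]; rfl
  rw [h2]
  exact h1

end FrobId


end Fermat.Agent.Lib.Cheb.H701
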