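import Fermat.Agent.Lib.Cheb.H701.Defs
import Fermat.Agent.Lib.Cheb.H701.FrobId
import Fermat.Agent.Lib.Cheb.H701.Construct

/-!
# Chebotarev's crossing argument (piece E of CHEB, helper701)

`strongChebCore_of_cycDirichlet : CycDirichlet → StrongChebCore`:
the strong qualitative Chebotarev theorem for Galois number fields over `ℚ` follows, by pure
algebra, from Dirichlet's theorem for cyclotomic extensions of number fields.
-/

open scoped NumberField

set_option autoImplicit false

namespace Fermat.Agent.Lib.Cheb.H701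

section FixedField

variable {M : Type*} [Field M] [NumberField M] [IsGalois ℚ M]

/-- If the cyclotomic character is injective on `⟨c⟩`, then `M = F(ζ)` for the fixed field `F`
of `⟨c⟩`. -/
theorem isCyclotomicExtension_fixedField_h701 (c : M ≃ₐ[ℚ] M) {m : ℕ} [NeZero m] {ζ : M}
    (hζ : IsPrimitiveRoot ζ m)
    (hinj : ∀ g ∈ Subgroup.zpowers c, g ζ = ζ → g = 1) :
    IsCyclotomicExtension {m} (IntermediateField.fixedField (Subgroup.zpowers c)) M := by
  set F := IntermediateField.fixedField (Subgroup.zpowers c) with hFdef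
  have hF : F.fixingSubgroup = Subgroup.zpowers c :=
    IntermediateField.fixingSubgroup_fixedField _
  have hcyc : IsCyclotomicExtension {m} F (IntermediateField.adjoin F {ζ}) :=
    IsPrimitiveRoot.intermediateField_adjoin_isCyclotomicExtension F hζ
  have hfix : (IntermediateField.adjoin F {ζ}).fixingSubgroup = ⊥ := by
    rw [eq_bot_iff]
    intro g hg
    rw [IntermediateField.mem_fixingSubgroup_iff] at hg
    have hgζ : g ζ = ζ := hg ζ (IntermediateField.mem_adjoin_simple_self F ζ)
    have hmem : g.restrictScalars ℚ ∈ Subgroup.zpowers c := by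
      rw [← hF, IntermediateField.mem_fixingSubgroup_iff]
      intro x hx
      exact g.commutes ⟨x, hx⟩
    have h1 : g.restrictScalars ℚ = 1 := hinj _ hmem hgζ
    rw [Subgroup.mem_bot]
    ext x
    have := congrArg (fun f : M ≃ₐ[ℚ] M => f x) h1
    simpa using this
  have htop : IntermediateField.adjoin F {ζ} = ⊤ := by
    rw [← IsGalois.fixedField_fixingSubgroup (IntermediateField.adjoin F {ζ}), hfix,
      IntermediateField.fixedField_bot]
  rw [htop] at hcyc
  exact IsCyclotomicExtension.equiv {m} F _ (IntermediateField.topEquiv (F := F) (E := M))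

end FixedField

/-- **Chebotarev's crossing argument.**  Dirichlet's theorem for cyclotomic extensions of number
fields implies the strong qualitative Chebotarev theorem for Galois number fields over `ℚ`. -/
theorem strongChebCore_of_cycDirichlet (hD : CycDirichlet) : StrongChebCore := by
  classical
  intro L _ _ _ σ S
  -- choose the auxiliary prime `m`
  obtain ⟨m, hmprime, hmgt, hmod⟩ :=
    Nat.exists_prime_gt_modEq_one (k := orderOf σ) (NumberField.discr L).natAbs
      (orderOf_pos σ).ne'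
  have : Fact m.Prime := ⟨hmprime⟩
  have hdisc0 : (NumberField.discr L).natAbs ≠ 0 :=
    Int.natAbs_ne_zero.mpr (NumberField.discr_ne_zero L)
  have hdisc : ¬ (m : ℤ) ∣ NumberField.discr L := by
    intro h
    have h1 : m ∣ (NumberField.discr L).natAbs := Int.natCast_dvd.mp h
    exact absurd (Nat.le_of_dvd (Nat.pos_of_ne_zero hdisc0) h1) (not_le.mpr hmgt)
  -- the field `M = L(ζ_m)`
  let M := CyclotomicField m L
  have : IsGalois ℚ M := isGalois_of_isCyclotomicExtension_h701 L M m
  have hζ : IsPrimitiveRoot (IsCyclotomicExtension.zeta m L M) m :=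
    IsCyclotomicExtension.zeta_spec m L M
  set ζ : M := IsCyclotomicExtension.zeta m L M with hζdef
  -- the crossing element
  obtain ⟨c, hcL, hinj⟩ := exists_crossing_lift_h701 L M m hdisc σ hmod
  set F := IntermediateField.fixedField (Subgroup.zpowers c) with hFdef
  have hF : F.fixingSubgroup = Subgroup.zpowers c :=
    IntermediateField.fixingSubgroup_fixedField _
  have : IsCyclotomicExtension {m} F M := isCyclotomicExtension_fixedField_h701 c hζ hinj
  -- `c` as an element of `Gal(M/F)`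
  have hcF : ∀ x : F, c.toRingEquiv (algebraMap F M x) = algebraMap F M x := by
    intro x
    exact (IntermediateField.mem_fixedField_iff _ _).mp x.2 c (Subgroup.mem_zpowers c)
  let c' : M ≃ₐ[F] M := AlgEquiv.ofRingEquiv hcF
  -- apply Dirichlet
  obtain ⟨p, r, hp, hpS, hr, hN, hgζ⟩ :=
    hD F M m ζ hζ c' (S ∪ {m} ∪ (NumberField.discr L).natAbs.primeFactors)
  have hcζ : c ζ = ζ ^ p := hgζ
  simp only [Finset.mem_union, Finset.mem_singleton, not_or] at hpS
  obtain ⟨⟨hpS, hpm⟩, hpd⟩ := hpS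
  -- a prime of `M` above `r`
  obtain ⟨P', -, hP'prime, hP'⟩ := Ideal.exists_ideal_over_prime_of_isIntegral r
    (⊥ : Ideal (𝓞 M)) (by simp [← RingHom.ker_eq_comap_bot])
  have hfrobM : IsArithFrobAt ℤ c P' :=
    isArithFrobAt_of_degree_one_h701 c hζ hinj F hF r hp hN hpm hmprime hcζ P' hP'
  have hfrobL : IsArithFrobAt ℤ σ (P'.under (𝓞 L)) :=
    isArithFrobAt_under_h701 c σ hcL P' hfrobM
  -- `p ∈ P'`
  have hpr : (p : 𝓞 F) ∈ r := by
    have := Ideal.absNorm_mem r
    rwa [hN] at this
  have hpP' : (p : 𝓞 M) ∈ P' := by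
    have h1 : (p : 𝓞 F) ∈ P'.comap (algebraMap (𝓞 F) (𝓞 M)) := hP' ▸ hpr
    rw [Ideal.mem_comap] at h1
    simpa using h1
  have hPprime : (P'.under (𝓞 L)).IsPrime := Ideal.comap_isPrime _ P'
  have hpP : (p : 𝓞 L) ∈ P'.under (𝓞 L) := by
    rw [Ideal.under_def, Ideal.mem_comap]
    simpa using hpP'
  have hPbot : P'.under (𝓞 L) ≠ ⊥ := by
    intro h
    rw [h, Ideal.mem_bot] at hpP
    exact hp.ne_zero (by exact_mod_cast hpP)
  have hPmax : (P'.under (𝓞 L)).IsMaximal := hPprime.isMaximal hPbot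
  -- unramified
  have hpdisc : ¬ ((p : ℕ) : ℤ) ∣ NumberField.discr L := by
    intro h
    have h1 : p ∣ (NumberField.discr L).natAbs := Int.natCast_dvd.mp h
    exact hpd (Nat.mem_primeFactors.mpr ⟨hp, h1, hdisc0⟩)
  have hunr : Algebra.IsUnramifiedAt ℤ (P'.under (𝓞 L)) :=
    (NumberField.not_dvd_discr_iff_forall_liesOver L (𝓞 L)
      (Nat.prime_iff_prime_int.mp hp)).mp hpdisc _ hPmax
      ⟨(under_int_eq_span_h701 (P'.under (𝓞 L)) hp hpP).symm⟩
  exact ⟨p, P'.under (𝓞 L), hPprime, hp, hpS, hpP, hunr, hfrobL⟩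

/-- The strong core implies the weak core (`WeakChebCore` of `Lib/Cheb/H116/Core.lean`, restated
verbatim): take `τ = σ`. -/
theorem weakChebCore_of_strongChebCore_h701 (h : StrongChebCore) :
    ∀ (L : Type) [Field L] [NumberField L] [IsGalois ℚ L] (σ : L ≃ₐ[ℚ] L) (S : Finset ℕ),
      ∃ (p : ℕ) (P : Ideal (𝓞 L)) (_ : P.IsPrime) (τ : L ≃ₐ[ℚ] L), p.Prime ∧ p ∉ S ∧
        (p : 𝓞 L) ∈ P ∧ Algebra.IsUnramifiedAt ℤ P ∧ IsArithFrobAt ℤ τ P ∧
        Subgroup.zpowers τ = Subgroup.zpowers σ := by
  intro L _ _ _ σ S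
  obtain ⟨p, P, hP, hp, hpS, hpP, hunr, hfrob⟩ := h L σ S
  exact ⟨p, P, hP, σ, hp, hpS, hpP, hunr, hfrob, rfl⟩

end Fermat.Agent.Lib.Cheb.H701
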