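import Mathlib

/-!
# Strong qualitative Chebotarev: interface statements (piece E of CHEB, helper701)

* `StrongChebCore`: every element `σ` of the Galois group of a Galois number field `L/ℚ` *is*
  the arithmetic Frobenius at some unramified prime `P` of `L` above a prime number `p` outside any
  given finite set.  (Same shape as `WeakChebCore` of `Lib/Cheb/H116/Core.lean`, with `τ = σ`.)
* `CycDirichlet`: Dirichlet's theorem for the cyclotomic extension `F(ζ_m)/F` of an arbitrary
  number field `F` (`m` prime): every element `g` of `Gal(F(ζ_m)/F)` acts on `ζ_m` as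
  `ζ ↦ ζ ^ p` for the norm `p` of some degree-one prime `r` of `F`, with `p` outside any given
  finite set.  This is the only analytic input of Chebotarev's crossing argument
  (`Crossing.lean`: `strongChebCore_of_cycDirichlet`).
-/

open scoped NumberField

set_option autoImplicit false

namespace Fermat.Agent.Lib.Cheb.H701

/-- Strong number-field core of the qualitative Chebotarev theorem: every element of the Galois
group of a Galois number field is the Frobenius element of some unramified prime outside `S`. -/
def StrongChebCore : Prop :=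
  ∀ (L : Type) [Field L] [NumberField L] [IsGalois ℚ L] (σ : L ≃ₐ[ℚ] L) (S : Finset ℕ),
    ∃ (p : ℕ) (P : Ideal (𝓞 L)) (_ : P.IsPrime), p.Prime ∧ p ∉ S ∧
      (p : 𝓞 L) ∈ P ∧ Algebra.IsUnramifiedAt ℤ P ∧ IsArithFrobAt ℤ σ P

/-- Dirichlet's theorem for cyclotomic extensions `M = F(ζ_m)` (`m` prime) of a number field `F`:
for every `g ∈ Gal(M/F)` and every finite set `S` of prime numbers there is a prime ideal `r` of
`𝓞 F` whose absolute norm is a prime number `p ∉ S` with `g ζ = ζ ^ p`. -/
def CycDirichlet : Prop :=
  ∀ (F : Type) [Field F] [NumberField F] (M : Type) [Field M] [NumberField M] [Algebra F M]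
    (m : ℕ) [Fact m.Prime] [IsCyclotomicExtension {m} F M] (ζ : M), IsPrimitiveRoot ζ m →
    ∀ (g : M ≃ₐ[F] M) (S : Finset ℕ),
      ∃ (p : ℕ) (r : Ideal (𝓞 F)), p.Prime ∧ p ∉ S ∧ r.IsPrime ∧ Ideal.absNorm r = p ∧
        g ζ = ζ ^ p

end Fermat.Agent.Lib.Cheb.H701
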